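import Fermat.Agent.LT.T6.H179.LocRegSpec

/-!
# Row LT, tower T6, sub-leaf T6.18f.3 `NearC179` (helper568)

OFF-MAIN.  `nearC_of568 : H179.NormalFormC179 → H179.RootC179 → H179.NearC179`, VERBATIM against
`LT/T6/H179/LocRegSpec.lean` (helper179@eb0286de2, sha256 `4a0ec3cb…`), on `T6/Spec.lean`
(sha256 `be86e12a…`) and `T6/H783/BadSpec.lean` (sha256 `c79abacc…`), byte-identical copies.

Route (valuation bookkeeping only): `γ ∼ A + B γ₀` with `(A, B)` near `(0, 1)`
(`NormalFormC179` at a deeper radius); by Cayley–Hamilton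
`(A + B γ₀) γ₀⁻¹ = (B + A t₀ / d₀) - (A / d₀) γ₀` is near `1`, hence an `l`-th power `t ^ l`,
`t = a + b γ₀` near `1` (`RootC179`); `t` is invertible because `t ^ l γ₀ = A + B γ₀` is.
-/

set_option autoImplicit false

open scoped Matrix

noncomputable section

namespace Fermat.Agent.LT.T6.H568

open Fermat.Agent.LT.T6 Fermat.Agent.LT.T6.H783 Fermat.Agent.LT.T6.H179

/-- Cayley–Hamilton for `2 × 2` matrices. -/
theorem mul_self_fin_two568 {k : Type} [Field k] (X : Matrix (Fin 2) (Fin 2) k) :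
    X * X = X.trace • X - X.det • (1 : Matrix (Fin 2) (Fin 2) k) := by
  ext i j
  fin_cases i <;> fin_cases j <;>
    simp [Matrix.mul_apply, Fin.sum_univ_two, Matrix.trace_fin_two, Matrix.det_fin_two] <;> ring

/-- The key identity: `((B + A t / d) + (-A / d) X) X = A + B X` for `t = tr X`, `d = det X ≠ 0`. -/
theorem key_identity568 {k : Type} [Field k] (X : Matrix (Fin 2) (Fin 2) k) (hd : X.det ≠ 0)
    (A B : k) :
    ((B + A * (X.trace / X.det)) • (1 : Matrix (Fin 2) (Fin 2) k) + (-(A / X.det)) • X) * X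
      = A • (1 : Matrix (Fin 2) (Fin 2) k) + B • X := by
  rw [add_mul, Matrix.smul_mul, Matrix.smul_mul, one_mul, mul_self_fin_two568 X]
  rw [smul_sub, smul_smul, smul_smul]
  have h1 : -(A / X.det) * X.det = -A := by field_simp
  have h2 : -(A / X.det) * X.trace = -(A * (X.trace / X.det)) := by field_simp
  rw [h1, h2]
  rw [add_smul, neg_smul, neg_smul]
  abel

/-- Every element of `ℤᵐ⁰` is bounded by some `exp c`, `0 ≤ c`. -/
theorem exists_le_exp568 (x : Γ₀) : ∃ c : ℤ, 0 ≤ c ∧ x ≤ WithZero.exp c := by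
  by_cases hx : x = 0
  · exact ⟨0, le_rfl, by rw [hx]; exact zero_le⟩
  · refine ⟨max 0 (WithZero.log x), le_max_left _ _, ?_⟩
    calc x = WithZero.exp (WithZero.log x) := (WithZero.exp_log hx).symm
      _ ≤ WithZero.exp (max 0 (WithZero.log x)) :=
        WithZero.exp_le_exp.mpr (le_max_right _ _)

/-- **T6.18f.3** from the normal form and the `l`-th roots. -/
theorem nearC_of568 (hNF : NormalFormC179) (hRoot : RootC179) : NearC179 := by
  intro k _ _ q hk l hl γ₀ hreg M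
  obtain ⟨N₂, hN₂⟩ := hRoot k q hk l hl γ₀ hreg M
  set X : Matrix (Fin 2) (Fin 2) k := (γ₀ : Matrix (Fin 2) (Fin 2) k) with hX
  have hd : X.det ≠ 0 := by
    have h := Matrix.GeneralLinearGroup.det_ne_zero γ₀
    simpa [hX] using h
  obtain ⟨c₁, hc₁0, hc₁⟩ := exists_le_exp568 (Valued.v (X.trace / X.det))
  obtain ⟨c₂, hc₂0, hc₂⟩ := exists_le_exp568 (Valued.v (X.det)⁻¹)
  set c : ℤ := max c₁ c₂ with hc
  have hc0 : 0 ≤ c := le_trans hc₁0 (le_max_left _ _)
  set M₁ : ℤ := max M (N₂ + c) with hM₁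
  obtain ⟨N, hN⟩ := hNF k q hk γ₀ hreg M₁
  refine ⟨N, ?_⟩
  intro γ hγ
  obtain ⟨g, A, B, hA, hB, hconj⟩ := hN γ hγ
  -- the bounds at radius `M`
  have hM₁M : WithZero.exp (-M₁) ≤ WithZero.exp (-M) :=
    WithZero.exp_le_exp.mpr (by have := le_max_left M (N₂ + c); omega)
  have hM₁N : WithZero.exp (-M₁) * WithZero.exp c ≤ WithZero.exp (-N₂) := by
    rw [← WithZero.exp_add]
    exact WithZero.exp_le_exp.mpr (by have := le_max_right M (N₂ + c); omega)
  have hM₁N' : WithZero.exp (-M₁) ≤ WithZero.exp (-N₂) :=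
    WithZero.exp_le_exp.mpr (by have := le_max_right M (N₂ + c); omega)
  have hexp1 : WithZero.exp c₁ ≤ WithZero.exp c := WithZero.exp_le_exp.mpr (le_max_left _ _)
  have hexp2 : WithZero.exp c₂ ≤ WithZero.exp c := WithZero.exp_le_exp.mpr (le_max_right _ _)
  -- the element `u = a₁ + b₁ γ₀`
  set a₁ : k := B + A * (X.trace / X.det) with ha₁
  set b₁ : k := -(A / X.det) with hb₁
  have hva₁ : Valued.v (a₁ - 1) ≤ WithZero.exp (-N₂) := by
    have e : a₁ - 1 = (B - 1) + A * (X.trace / X.det) := by rw [ha₁]; ring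
    rw [e]
    refine le_trans (Valuation.map_add _ _ _) (max_le (le_trans hB hM₁N') ?_)
    rw [Valuation.map_mul]
    exact le_trans (mul_le_mul' hA (le_trans hc₁ hexp1)) hM₁N
  have hvb₁ : Valued.v b₁ ≤ WithZero.exp (-N₂) := by
    rw [hb₁, Valuation.map_neg, div_eq_mul_inv, Valuation.map_mul]
    exact le_trans (mul_le_mul' hA (le_trans hc₂ hexp2)) hM₁N
  obtain ⟨a', b', ha', hb', hpow⟩ := hN₂ a₁ b₁ hva₁ hvb₁
  -- the matrix `t`
  set T : Matrix (Fin 2) (Fin 2) k := a' • (1 : Matrix (Fin 2) (Fin 2) k) + b' • X with hT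
  have hkey : T ^ l * X = A • (1 : Matrix (Fin 2) (Fin 2) k) + B • X := by
    rw [hT, hpow]
    exact key_identity568 X hd A B
  have hdetconj : ((g⁻¹ * γ * g : GL (Fin 2) k) : Matrix (Fin 2) (Fin 2) k).det ≠ 0 :=
    Matrix.GeneralLinearGroup.det_ne_zero _
  have hdetT : T.det ≠ 0 := by
    intro h0
    apply hdetconj
    rw [hconj, ← hkey, Matrix.det_mul, Matrix.det_pow, h0, zero_pow (Nat.pos_iff_ne_zero.mp hl),
      zero_mul]
  set t : GL (Fin 2) k := Matrix.GeneralLinearGroup.mkOfDetNeZero T hdetT with ht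
  have htT : (t : Matrix (Fin 2) (Fin 2) k) = T := rfl
  have hmat : ((t ^ l * γ₀ : GL (Fin 2) k) : Matrix (Fin 2) (Fin 2) k)
      = A • (1 : Matrix (Fin 2) (Fin 2) k) + B • X := by
    rw [Units.val_mul, Units.val_pow_eq_pow_val, htT]
    exact hkey
  have hGL : g⁻¹ * γ * g = t ^ l * γ₀ := by
    apply Matrix.GeneralLinearGroup.ext
    intro i j
    rw [hconj, hmat]
  refine ⟨g, t, a', b', A, B, ha', hb', le_trans hA hM₁M, le_trans hB hM₁M, htT, hmat, ?_⟩
  rw [← hGL]
  group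

end Fermat.Agent.LT.T6.H568

end
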